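import Fermat.Agent.Top.Defs
import Fermat.Agent.S52.Congr
import Fermat.Agent.Switch.Irred

/-!
# The 3-5 switch, keeping the bad primes
-/

set_option autoImplicit false

namespace Fermat.Agent.Top

/-- The `3`-`5` switch of `S52`, with the additional information that the discriminant of the
new curve is divisible by the discriminant of the old one. -/
theorem switch35 : Switch35 := by
  intro W hΔ hW _
  obtain ⟨s, hs⟩ := Fermat.Agent.Switch.exists_irreducible W hΔ hW
  refine ⟨Fermat.Agent.S52x.famCurve W (30 * W.Δ * s),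
    Fermat.Agent.S52x.famCurve_Δ_ne_zero hΔ s,
    Fermat.Agent.S52x.famCurve_semistable hΔ hW s, hs, ?_,
    fun ℓ hℓ _ hg _ => Fermat.Agent.S52x.apOfModel_congr s ℓ hℓ hg⟩
  rw [Fermat.Agent.S52x.famCurve_Δ_int]
  exact dvd_mul_right _ _

end Fermat.Agent.Top
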