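import Fermat.Agent.Top.Defs

/-!
# The top of the tree: wiring

* `resThreeTwo_of`, `exact_of_two`: residual modularity at `3`, then modularity, of all
  semistable curves multiplicative at `2`, from `GoodSwitch`, `TwoAdic`, `LiftSf`, `Switch35`
  and `S51`.
* `frey_exact`, `frey_isModular`, `frey_modularRep`: `S04`, `S06`.
* `s45_of`, `s03_of`, `flt_of`: `S45`, `S03`, `S01`.
* `s60_of`, `s50_of`: `S60`, `S50` from `ResThree`.
-/

set_option autoImplicit false

open WeierstrassCurve WeierstrassCurve.Affine WeierstrassCurve.Affine.Point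
open scoped WeierstrassCurve.Affine

namespace Fermat.Agent.Top

open Fermat.Agent.S60aux Fermat.Agent.Frey

theorem resThree_of_congruent {W W' : WeierstrassCurve ℤ}
    (h : Mlc1IsModularModelOfExactConductorLevel W')
    (hcong : ∀ ℓ : ℕ, ℓ.Prime → W.IsGoodPrimeFor ℓ → W'.IsGoodPrimeFor ℓ → ℓ ≠ 3 →
        (3 : ℤ) ∣ (W'.apOfModel ℓ - W.apOfModel ℓ)) :
    ∃ M : ℕ, Squarefree M ∧ W.IsResiduallyModularOfLevel 3 M := by
  obtain ⟨N, -, hsq, hres⟩ := residually_of_congruent (p := 3) (by norm_num) h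
    (by simpa using hcong)
  exact ⟨N, hsq, hres⟩

/-- `TwoAdic` from modularity of level the conductor. -/
theorem twoAdic_of_level
    (h : ∀ W : WeierstrassCurve ℤ, LTF.GoodCurve W → W.IsModularModelOfLevel W.conductorLevel) :
    TwoAdic := fun W hW =>
  ⟨W.conductorLevel, W.conductorLevel_pos, W.squarefree_conductorLevel,
    fun _ hq => WeierstrassCurve.prime_dvd_conductorLevel_iff W hW.neg.ne hq, h W hW⟩

theorem resThreeTwo_of (hA : GoodSwitch) (hL : TwoAdic) : ResThreeTwo := by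
  intro W hΔ hW h2 h3
  obtain ⟨W', hW', hcong⟩ := hA W hΔ hW h2 h3
  exact resThree_of_congruent (hL W' hW') hcong

/-- Modularity of all semistable curves multiplicative at `2`. -/
theorem exact_of_two (hres : ResThreeTwo) (hlift : LiftSf) (hsw : Switch35) (h51 : StmtS51)
    (W : WeierstrassCurve ℤ) (hΔ : W.Δ ≠ 0) (hW : W.IsSemistableModel)
    (h2 : (2 : ℤ) ∣ W.Δ) : Mlc1IsModularModelOfExactConductorLevel W := by
  have key : ∀ V : WeierstrassCurve ℤ, V.Δ ≠ 0 → V.IsSemistableModel → (2 : ℤ) ∣ V.Δ →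
      V.ModRepIsIrreducible 3 → Mlc1IsModularModelOfExactConductorLevel V := by
    intro V hΔV hV h2V h3V
    obtain ⟨M, hM, hres⟩ := hres V hΔV hV h2V h3V
    exact hlift 3 (Or.inl rfl) V hΔV hV h3V M hM hres
  rcases h51 W hΔ hW with h3 | h5
  · exact key W hΔ hW h2 h3
  · obtain ⟨W', hΔ', hW', h3', hdvd, hcong⟩ := hsw W hΔ hW h5
    obtain ⟨N, -, hsq, hres⟩ := residually_of_congruent (p := 5) (by norm_num)
      (key W' hΔ' hW' (h2.trans hdvd) h3') (by simpa using hcong)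
    exact hlift 5 (Or.inr rfl) W hΔ hW h5 N hsq hres

/-- Modularity of all semistable curves. -/
theorem exact_of_all (hres : ResThree) (hlift : LiftSf) (hsw : Switch35) (h51 : StmtS51)
    (W : WeierstrassCurve ℤ) (hΔ : W.Δ ≠ 0) (hW : W.IsSemistableModel) :
    Mlc1IsModularModelOfExactConductorLevel W := by
  have key : ∀ V : WeierstrassCurve ℤ, V.Δ ≠ 0 → V.IsSemistableModel →
      V.ModRepIsIrreducible 3 → Mlc1IsModularModelOfExactConductorLevel V := by
    intro V hΔV hV h3V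
    obtain ⟨M, hM, hres⟩ := hres V hΔV hV h3V
    exact hlift 3 (Or.inl rfl) V hΔV hV h3V M hM hres
  rcases h51 W hΔ hW with h3 | h5
  · exact key W hΔ hW h3
  · obtain ⟨W', hΔ', hW', h3', -, hcong⟩ := hsw W hΔ hW h5
    obtain ⟨N, -, hsq, hres⟩ := residually_of_congruent (p := 5) (by norm_num)
      (key W' hΔ' hW' h3') (by simpa using hcong)
    exact hlift 5 (Or.inr rfl) W hΔ hW h5 N hsq hres

/-- `S60`. -/
theorem s60_of (hres : ResThree) (hlift : LiftSf) (hsw : Switch35) (h51 : StmtS51)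
    (W : WeierstrassCurve ℤ) (hΔ : W.Δ ≠ 0) (hW : W.IsSemistableModel) :
    (W.map (Int.castRingHom ℚ)).IsModular :=
  isModular_of_exact (exact_of_all hres hlift hsw h51 W hΔ hW)

/-- `S50`. -/
theorem s50_of (hres : ResThree) : StmtS50 := by
  intro W hΔ hW h3
  obtain ⟨M, hM, h⟩ := hres W hΔ hW h3
  refine ⟨M, Nat.pos_of_ne_zero hM.ne_zero, h, ?_, ?_⟩
  · intro q hq _ hq3
    exact hq.one_lt.ne' (Nat.isUnit_iff.mp (hM q (dvd_trans ⟨q, by ring⟩ hq3)))
  · intro h9
    exact absurd (Nat.isUnit_iff.mp (hM 3 (by simpa [pow_two] using h9))) (by norm_num)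

/-- The integral Frey model is multiplicative at `2`. -/
theorem two_dvd_freyCurveInt_Δ (P : FreyPackage) : (2 : ℤ) ∣ P.freyCurveInt.Δ := by
  have h := freyCurveInt_Δ P
  have hb : (2 : ℤ) ∣ P.a * P.b * P.c := ((two_dvd_b P).mul_left _).mul_right _
  have h10 : (2 : ℤ) ^ 9 ∣ (P.a * P.b * P.c) ^ (2 * P.p) := by
    have h1 : (2 : ℤ) ^ (2 * P.p) ∣ (P.a * P.b * P.c) ^ (2 * P.p) := pow_dvd_pow_of_dvd hb _
    have h2 : (2 : ℤ) ^ 9 ∣ (2 : ℤ) ^ (2 * P.p) := pow_dvd_pow _ (by have := P.hp5; omega)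
    exact h2.trans h1
  rw [← h] at h10
  obtain ⟨c, hc⟩ := h10
  exact ⟨c, by
    have : (2 : ℤ) ^ 8 * P.freyCurveInt.Δ = 2 ^ 8 * (2 * c) := by rw [hc]; ring
    exact mul_left_cancel₀ (by norm_num) this⟩

/-- Modularity of the Frey curve from modularity of semistable curves multiplicative at `2`. -/
theorem frey_exact
    (h : ∀ W : WeierstrassCurve ℤ, W.Δ ≠ 0 → W.IsSemistableModel → (2 : ℤ) ∣ W.Δ →
      Mlc1IsModularModelOfExactConductorLevel W) (P : FreyPackage) :
    Mlc1IsModularModelOfExactConductorLevel P.freyCurveInt :=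
  h _ (freyCurveInt_Δ_ne_zero P) (freyCurveInt_isSemistableModel P) (two_dvd_freyCurveInt_Δ P)

/-- `S04`. -/
theorem s04_of {P : FreyPackage} (h : Mlc1IsModularModelOfExactConductorLevel P.freyCurveInt) :
    P.freyCurve.IsModular := by
  have := isModular_of_exact h
  rwa [freyCurveInt_map] at this

/-- `S06`. -/
theorem s06_of {P : FreyPackage} (h : Mlc1IsModularModelOfExactConductorLevel P.freyCurveInt) :
    ∃ N : ℕ, P.IsConductorLevel N ∧ P.ModularRepOfLevel N := by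
  obtain ⟨N, hN, hsq, hbad, f, hf, hap⟩ := h
  obtain ⟨𝔪, hmax, hpm⟩ := FLTPrelim.exists_maximalIdeal_natCast_prime_mem P.pp
  refine ⟨N, ⟨hN, hsq, fun q hq hqN => dvd_abc_of_dvd_Δ P hq ((hbad q hq).1 hqN)⟩,
    f, P.freyCurveInt, 𝔪, hf, freyCurveInt_isIntegralModelOf P, hmax, hpm, ?_⟩
  intro ℓ hℓ hgood hℓN _
  refine ⟨((P.freyCurveInt.apOfModel ℓ : ℤ) : integralClosure ℤ ℂ), ?_, by simp⟩
  rw [hap ℓ hℓ hgood hℓN]
  simp

/-- `S45`, given `S06`. -/
theorem s45_of (h05 : StmtS05) (h43 : StmtS43) (h44 : StmtS44) (P : FreyPackage)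
    (h06 : ∃ N : ℕ, P.IsConductorLevel N ∧ P.ModularRepOfLevel N)
    (hirr : GaloisRepIsIrreducible (K := AlgebraicClosure ℚ) ℚ P.freyCurve P.p) :
    ∃ f : CuspForm (CongruenceSubgroup.Gamma0 2) 2, f ≠ 0 :=
  S45aux.level_lowering_to_two_of P hirr h06 (h05 P) (h43 P) (h44 P)

/-- `S03`. -/
theorem s03_of (h07 : StmtS07) (h09 : StmtS09)
    (h45 : ∀ P : FreyPackage,
      GaloisRepIsIrreducible (K := AlgebraicClosure ℚ) ℚ P.freyCurve P.p →
      ∃ f : CuspForm (CongruenceSubgroup.Gamma0 2) 2, f ≠ 0) (P : FreyPackage) : False := by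
  obtain ⟨f, hf⟩ := h45 P (h09 P)
  exact hf (h07 f)

/-- `S01`. -/
theorem s01_of (h02 : StmtS02) (h03 : FreyPackage → False) (n : ℕ) (hn : 3 ≤ n) (a b c : ℕ)
    (ha : 0 < a) (hb : 0 < b) (hc : 0 < c) : a ^ n + b ^ n ≠ c ^ n := by
  have hflt : FermatLastTheorem := by
    refine FermatLastTheorem.of_odd_primes ?_
    intro p hp hodd
    by_cases h3 : p = 3
    · subst h3; exact fermatLastTheoremThree
    · have h5 : 5 ≤ p := by
        have h2 := hp.two_le
        have h22 : p ≠ 2 := by rintro rfl; exact absurd hodd (by decide)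
        have h4 : p ≠ 4 := by rintro rfl; exact absurd hp (by norm_num)
        omega
      rw [fermatLastTheoremFor_iff_int]
      intro x y z hx hy hz h
      exact h03 (h02 x y z hx hy hz p hp h5 h).some
  exact hflt n hn a b c ha.ne' hb.ne' hc.ne'

/-- **Fermat's Last Theorem** from the inputs. -/
theorem flt_of (h02 : StmtS02) (h05 : StmtS05) (h07 : StmtS07) (h09 : StmtS09)
    (h43 : StmtS43) (h44 : StmtS44) (h51 : StmtS51) (hsw : Switch35)
    (hA : GoodSwitch) (hL : TwoAdic) (hlift : LiftSf)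
    (n : ℕ) (hn : 3 ≤ n) (a b c : ℕ) (ha : 0 < a) (hb : 0 < b) (hc : 0 < c) :
    a ^ n + b ^ n ≠ c ^ n :=
  s01_of h02 (s03_of h07 h09 fun P => s45_of h05 h43 h44 P
    (s06_of (frey_exact (exact_of_two (resThreeTwo_of hA hL) hlift hsw h51) P)))
    n hn a b c ha hb hc

end Fermat.Agent.Top
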