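import Fermat.Agent.Top.Wiring
import Fermat.Agent.Top.Switch
import Fermat.Agent.S09_wiring
import Fermat.Agent.S02
import Fermat.Agent.S05
import Fermat.Agent.S07
import Fermat.Agent.S10
import Fermat.Agent.S11
import Fermat.Agent.S13
import Fermat.Agent.S51
import Fermat.Agent.LTF.Switch3

/-!
# The top of the tree: Fermat's Last Theorem from the statements which are still open
-/

set_option autoImplicit false

open WeierstrassCurve WeierstrassCurve.Affine WeierstrassCurve.Affine.Point

namespace Fermat.Agent.Top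

/-- The statement of `S12`. -/
def StmtS12 : Prop :=
  ∀ (P : FreyPackage), 17 ≤ P.p →
    ¬ HasGaloisStableCofixedLine (K := AlgebraicClosure ℚ) ℚ P.freyCurve P.p

theorem goodSwitch : GoodSwitch := by
  intro W hΔ hW h2 h3
  obtain ⟨W', hW', h⟩ := LTF.exists_good_switch W hΔ hW h2 h3
  exact ⟨W', hW', fun ℓ hℓ hg hg' hℓ3 => h ℓ hℓ hℓ3 hg hg'⟩

theorem s09_of (h12 : StmtS12) : StmtS09 :=
  S09aux.irreducible_of_parts (fun P hP => S10.result P hP) (fun P hP => S11.result P hP) h12
    (fun P hP => S13.result P hP)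

/-- Modularity of all semistable curves multiplicative at `2`. -/
theorem exact_of_open (hL : TwoAdic) (hlift : LiftSf)
    (W : WeierstrassCurve ℤ) (hΔ : W.Δ ≠ 0) (hW : W.IsSemistableModel)
    (h2 : (2 : ℤ) ∣ W.Δ) : Mlc1IsModularModelOfExactConductorLevel W :=
  exact_of_two (resThreeTwo_of goodSwitch hL) hlift switch35 S51.result W hΔ hW h2

/-- `S04`. -/
theorem s04_of_open (hL : TwoAdic) (hlift : LiftSf) (P : FreyPackage) :
    P.freyCurve.IsModular :=
  s04_of (frey_exact (exact_of_open hL hlift) P)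

/-- `S06`. -/
theorem s06_of_open (hL : TwoAdic) (hlift : LiftSf) (P : FreyPackage) :
    ∃ N : ℕ, P.IsConductorLevel N ∧ P.ModularRepOfLevel N :=
  s06_of (frey_exact (exact_of_open hL hlift) P)

/-- `S45`. -/
theorem s45_of_open (hL : TwoAdic) (hlift : LiftSf) (h43 : StmtS43) (h44 : StmtS44)
    (P : FreyPackage) (hirr : GaloisRepIsIrreducible (K := AlgebraicClosure ℚ) ℚ P.freyCurve P.p) :
    ∃ f : CuspForm (CongruenceSubgroup.Gamma0 2) 2, f ≠ 0 :=
  s45_of (fun P _ hq hq2 hqp => S05.result P hq hq2 hqp) h43 h44 P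
    (s06_of_open hL hlift P) hirr

/-- **Fermat's Last Theorem** from `S12`, `S43`, `S44`, the `2`-adic modularity theorem and
modularity lifting. -/
theorem flt_of_open (h12 : StmtS12) (h43 : StmtS43) (h44 : StmtS44)
    (hL : TwoAdic) (hlift : LiftSf)
    (n : ℕ) (hn : 3 ≤ n) (a b c : ℕ) (ha : 0 < a) (hb : 0 < b) (hc : 0 < c) :
    a ^ n + b ^ n ≠ c ^ n :=
  flt_of S02.result (fun P _ hq hq2 hqp => S05.result P hq hq2 hqp) S07.result (s09_of h12)
    h43 h44 S51.result switch35 goodSwitch hL hlift n hn a b c ha hb hc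

end Fermat.Agent.Top
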