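import Fermat.Agent.Top.WiringP
import Fermat.Agent.LTF.TwoAdicFin
import Fermat.Agent.S59.Inputs
import Fermat.Agent.S59.TopGood
import Fermat.Agent.S59.Flat
import Fermat.Agent.S59.Strict
import Fermat.Agent.Ribet.LowerUnrMain

/-!
# Modularity of the semistable elliptic curves which are multiplicative at `2`
-/

set_option autoImplicit false

open WeierstrassCurve WeierstrassCurve.Affine WeierstrassCurve.Affine.Point

namespace Fermat.Agent.Top

open Fermat.Agent.S59aux

/-- **Modularity lifting** at `p = 3, 5`. -/
theorem liftSfP : LiftSfP :=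
  fun p hp W hΔ hW hirr M₀ hsq hpM hres =>
    liftSfP_of S35.result S36.result auxExists Ribet.lowerUnr
      (climb climbFlat climbStrict) p hp W hΔ hW hirr M₀ hsq hpM hres

/-- **Modularity** of all semistable curves multiplicative at `2`. -/
theorem exact_two (W : WeierstrassCurve ℤ) (hΔ : W.Δ ≠ 0) (hW : W.IsSemistableModel)
    (h2 : (2 : ℤ) ∣ W.Δ) : Mlc1IsModularModelOfExactConductorLevel W :=
  exact_of_openP LTF.twoAdic_fin liftSfP W hΔ hW h2

end Fermat.Agent.Top
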