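import Fermat.Agent.S60_wiring
import Fermat.Agent.S45_wiring
import Fermat.Agent.Frey.CurveInt
import Fermat.Agent.LTF.Defs

/-!
# The top of the tree: statements of the inputs

`S50`, `S60`, `S04`, `S06`, `S45`, `S03`, `S01` are deduced in `Top/Wiring.lean` from the
statements of this file.
-/

set_option autoImplicit false

open WeierstrassCurve WeierstrassCurve.Affine WeierstrassCurve.Affine.Point
open scoped WeierstrassCurve.Affine

namespace Fermat.Agent.Top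

/-- Modularity lifting at `p = 3, 5` from a squarefree residual level. -/
def LiftSf : Prop :=
  ∀ (p : ℕ) (_ : p = 3 ∨ p = 5) (W : WeierstrassCurve ℤ) (_ : W.Δ ≠ 0)
    (_ : W.IsSemistableModel) (_ : W.ModRepIsIrreducible p) (M₀ : ℕ) (_ : Squarefree M₀)
    (_ : W.IsResiduallyModularOfLevel p M₀),
    Mlc1IsModularModelOfExactConductorLevel W

/-- (A): the good switch mod `3` for curves multiplicative at `2`. -/
def GoodSwitch : Prop :=
  ∀ (W : WeierstrassCurve ℤ) (_ : W.Δ ≠ 0) (_ : W.IsSemistableModel) (_ : (2 : ℤ) ∣ W.Δ)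
    (_ : W.ModRepIsIrreducible 3),
    ∃ W' : WeierstrassCurve ℤ, LTF.GoodCurve W' ∧
      ∀ ℓ : ℕ, ℓ.Prime → W.IsGoodPrimeFor ℓ → W'.IsGoodPrimeFor ℓ → ℓ ≠ 3 →
        (3 : ℤ) ∣ W'.apOfModel ℓ - W.apOfModel ℓ

/-- The `2`-adic modularity theorem. -/
def TwoAdic : Prop :=
  ∀ W : WeierstrassCurve ℤ, LTF.GoodCurve W → Mlc1IsModularModelOfExactConductorLevel W

/-- The mod `5` switch, keeping bad primes (a strengthening of `S52`). -/
def Switch35 : Prop :=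
  ∀ (W : WeierstrassCurve ℤ) (_ : W.Δ ≠ 0) (_ : W.IsSemistableModel)
    (_ : W.ModRepIsIrreducible 5),
    ∃ W' : WeierstrassCurve ℤ, W'.Δ ≠ 0 ∧ W'.IsSemistableModel ∧ W'.ModRepIsIrreducible 3 ∧
      W.Δ ∣ W'.Δ ∧
      ∀ ℓ : ℕ, ℓ.Prime → W.IsGoodPrimeFor ℓ → W'.IsGoodPrimeFor ℓ → ℓ ≠ 5 →
        (5 : ℤ) ∣ (W'.apOfModel ℓ - W.apOfModel ℓ)

/-- Residual modularity at `3` of a squarefree level. -/
def ResThree : Prop :=
  ∀ (W : WeierstrassCurve ℤ) (_ : W.Δ ≠ 0) (_ : W.IsSemistableModel)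
    (_ : W.ModRepIsIrreducible 3),
    ∃ M : ℕ, Squarefree M ∧ W.IsResiduallyModularOfLevel 3 M

/-- `ResThree` for curves which are multiplicative at `2`. -/
def ResThreeTwo : Prop :=
  ∀ (W : WeierstrassCurve ℤ) (_ : W.Δ ≠ 0) (_ : W.IsSemistableModel) (_ : (2 : ℤ) ∣ W.Δ)
    (_ : W.ModRepIsIrreducible 3),
    ∃ M : ℕ, Squarefree M ∧ W.IsResiduallyModularOfLevel 3 M

/-- The statement of `S43`. -/
def StmtS43 : Prop :=
  ∀ (P : FreyPackage) {N q : ℕ}, P.IsConductorLevel N → q.Prime → q ≠ 2 → q ≠ P.p → q ∣ N →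
    GaloisRepIsIrreducible (K := AlgebraicClosure ℚ) ℚ P.freyCurve P.p →
    P.ModularRepOfLevel N → P.GaloisRepUnramifiedAt q →
    ∃ M : ℕ, M ∣ N ∧ ¬ q ∣ M ∧ P.ModularRepOfLevel M

/-- The statement of `S44`. -/
def StmtS44 : Prop :=
  ∀ (P : FreyPackage) {N : ℕ}, P.IsConductorLevel N → P.p ∣ N →
    GaloisRepIsIrreducible (K := AlgebraicClosure ℚ) ℚ P.freyCurve P.p →
    P.ModularRepOfLevel N → ∃ M : ℕ, M ∣ N ∧ ¬ P.p ∣ M ∧ P.ModularRepOfLevel M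

/-- The statement of `S05`. -/
def StmtS05 : Prop :=
  ∀ (P : FreyPackage) {q : ℕ}, q.Prime → q ≠ 2 → q ≠ P.p → P.GaloisRepUnramifiedAt q

/-- The statement of `S09`. -/
def StmtS09 : Prop :=
  ∀ P : FreyPackage, GaloisRepIsIrreducible (K := AlgebraicClosure ℚ) ℚ P.freyCurve P.p

/-- The statement of `S07`. -/
def StmtS07 : Prop :=
  ∀ f : CuspForm (CongruenceSubgroup.Gamma0 2) 2, f = 0

/-- The statement of `S02`. -/
def StmtS02 : Prop :=
  ∀ (a b c : ℤ), a ≠ 0 → b ≠ 0 → c ≠ 0 → ∀ (p : ℕ), p.Prime → 5 ≤ p →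
    a ^ p + b ^ p = c ^ p → Nonempty FreyPackage

end Fermat.Agent.Top
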