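import Fermat.Agent.Top.Landed
import Fermat.Agent.LTF.Switch3P

/-!
# The top of the tree without level lowering at `p`

Both switches keep good reduction at `p`, hence modularity lifting is only used from squarefree
residual levels which are prime to `p` whenever the curve is good at `p` (`LiftSfP`).
-/

set_option autoImplicit false

open WeierstrassCurve WeierstrassCurve.Affine WeierstrassCurve.Affine.Point
open scoped WeierstrassCurve.Affine

namespace Fermat.Agent.Top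

open Fermat.Agent.S60aux Fermat.Agent.Frey

/-- Modularity lifting at `p = 3, 5` from a squarefree residual level, which is prime to `p` if
the curve is good at `p`. -/
def LiftSfP : Prop :=
  ∀ (p : ℕ) (_ : p = 3 ∨ p = 5) (W : WeierstrassCurve ℤ) (_ : W.Δ ≠ 0)
    (_ : W.IsSemistableModel) (_ : W.ModRepIsIrreducible p) (M₀ : ℕ) (_ : Squarefree M₀)
    (_ : p ∣ M₀ → ¬ W.IsGoodPrimeFor p)
    (_ : W.IsResiduallyModularOfLevel p M₀),
    Mlc1IsModularModelOfExactConductorLevel W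

theorem LiftSf.liftSfP (h : LiftSf) : LiftSfP :=
  fun p hp W hΔ hW hirr M₀ hsq _ hres => h p hp W hΔ hW hirr M₀ hsq hres

/-- (A): the good switch mod `3` for curves multiplicative at `2`, keeping good reduction
at `3`. -/
def GoodSwitchP : Prop :=
  ∀ (W : WeierstrassCurve ℤ) (_ : W.Δ ≠ 0) (_ : W.IsSemistableModel) (_ : (2 : ℤ) ∣ W.Δ)
    (_ : W.ModRepIsIrreducible 3),
    ∃ W' : WeierstrassCurve ℤ, LTF.GoodCurve W' ∧
      (W.IsGoodPrimeFor 3 → W'.IsGoodPrimeFor 3) ∧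
      ∀ ℓ : ℕ, ℓ.Prime → W.IsGoodPrimeFor ℓ → W'.IsGoodPrimeFor ℓ → ℓ ≠ 3 →
        (3 : ℤ) ∣ W'.apOfModel ℓ - W.apOfModel ℓ

/-- The mod `5` switch, keeping bad primes and good reduction at `5`. -/
def Switch35P : Prop :=
  ∀ (W : WeierstrassCurve ℤ) (_ : W.Δ ≠ 0) (_ : W.IsSemistableModel)
    (_ : W.ModRepIsIrreducible 5),
    ∃ W' : WeierstrassCurve ℤ, W'.Δ ≠ 0 ∧ W'.IsSemistableModel ∧ W'.ModRepIsIrreducible 3 ∧
      W.Δ ∣ W'.Δ ∧ (W.IsGoodPrimeFor 5 → W'.IsGoodPrimeFor 5) ∧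
      ∀ ℓ : ℕ, ℓ.Prime → W.IsGoodPrimeFor ℓ → W'.IsGoodPrimeFor ℓ → ℓ ≠ 5 →
        (5 : ℤ) ∣ (W'.apOfModel ℓ - W.apOfModel ℓ)

/-- `residually_of_congruent`, where the level is prime to `p` if `W` is good at `p`. -/
theorem residually_of_congruentP {p : ℕ} (hp : p.Prime) {W W' : WeierstrassCurve ℤ}
    (h : Mlc1IsModularModelOfExactConductorLevel W')
    (hgoodp : W.IsGoodPrimeFor p → W'.IsGoodPrimeFor p)
    (hcong : ∀ ℓ : ℕ, ℓ.Prime → W.IsGoodPrimeFor ℓ → W'.IsGoodPrimeFor ℓ → ℓ ≠ p →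
        (p : ℤ) ∣ (W'.apOfModel ℓ - W.apOfModel ℓ)) :
    ∃ N : ℕ, Squarefree N ∧ (p ∣ N → ¬ W.IsGoodPrimeFor p) ∧
      W.IsResiduallyModularOfLevel p N := by
  obtain ⟨N, hN, hsq, hbad, f, hf, hap⟩ := h
  obtain ⟨𝔪, hmax, hpm⟩ := FLTPrelim.exists_maximalIdeal_natCast_prime_mem hp
  refine ⟨N, hsq, fun hpN hg => hgoodp hg ((hbad p hp).1 hpN), f, 𝔪, hf, hmax, hpm, ?_⟩
  intro ℓ hℓ hgood hℓN hℓp
  have hgood' : W'.IsGoodPrimeFor ℓ := fun hdvd => hℓN ((hbad ℓ hℓ).2 hdvd)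
  refine ⟨((W'.apOfModel ℓ : ℤ) : integralClosure ℤ ℂ), ?_, ?_⟩
  · rw [hap ℓ hℓ hgood' hℓN]
    simp
  · obtain ⟨c, hc⟩ := hcong ℓ hℓ hgood hgood' hℓp
    have : ((W'.apOfModel ℓ : ℤ) : integralClosure ℤ ℂ) -
        ((W.apOfModel ℓ : ℤ) : integralClosure ℤ ℂ) =
        (p : integralClosure ℤ ℂ) * ((c : ℤ) : integralClosure ℤ ℂ) := by
      rw [← Int.cast_sub, hc]
      push_cast
      ring
    rw [this]
    exact Ideal.mul_mem_right _ _ hpm

/-- The good switch. -/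
theorem goodSwitchP : GoodSwitchP := by
  intro W hΔ hW h2 h3
  obtain ⟨W', hW', hgood, h⟩ := LTF.exists_good_switch_three W hΔ hW h2 h3
  exact ⟨W', hW', hgood, fun ℓ hℓ hg hg' hℓ3 => h ℓ hℓ hℓ3 hg hg'⟩

/-- The `3`-`5` switch, keeping good reduction at `5`. -/
theorem switch35P : Switch35P := by
  intro W hΔ hW _
  obtain ⟨s, hs⟩ := Fermat.Agent.Switch.exists_irreducible W hΔ hW
  refine ⟨Fermat.Agent.S52x.famCurve W (30 * W.Δ * s),
    Fermat.Agent.S52x.famCurve_Δ_ne_zero hΔ s,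
    Fermat.Agent.S52x.famCurve_semistable hΔ hW s, hs, ?_, ?_,
    fun ℓ hℓ _ hg _ => Fermat.Agent.S52x.apOfModel_congr s ℓ hℓ hg⟩
  · rw [Fermat.Agent.S52x.famCurve_Δ_int]
    exact dvd_mul_right _ _
  · intro hg h
    have h5 : Prime ((5 : ℕ) : ℤ) := Nat.prime_iff_prime_int.1 Nat.prime_five
    rw [Fermat.Agent.S52x.famCurve_Δ_int] at h
    rcases h5.dvd_or_dvd h with h1 | h1
    · exact hg h1
    · have h2 := h5.dvd_of_dvd_pow h1
      set t : ℤ := 1728 * (30 * W.Δ * s) with ht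
      have h3 : ((5 : ℕ) : ℤ) ∣ t := by
        rw [ht]
        exact ⟨1728 * 6 * W.Δ * s, by push_cast; ring⟩
      have h4 : ((5 : ℕ) : ℤ) ∣ Fermat.Agent.S52x.Dp W.c₄ W.c₆ t - 1 := by
        obtain ⟨u, hu⟩ := h3
        refine ⟨u * t * (Fermat.Agent.S52x.dc2 W.c₄ W.c₆ + Fermat.Agent.S52x.dc3 W.c₄ W.c₆ * t
          + Fermat.Agent.S52x.dc4 W.c₄ W.c₆ * t ^ 2 + Fermat.Agent.S52x.dc5 W.c₄ W.c₆ * t ^ 3
          + Fermat.Agent.S52x.dc6 W.c₄ W.c₆ * t ^ 4 + Fermat.Agent.S52x.dc7 W.c₄ W.c₆ * t ^ 5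
          + Fermat.Agent.S52x.dc8 W.c₄ W.c₆ * t ^ 6 + Fermat.Agent.S52x.dc9 W.c₄ W.c₆ * t ^ 7
          + Fermat.Agent.S52x.dc10 W.c₄ W.c₆ * t ^ 8 + Fermat.Agent.S52x.dc11 W.c₄ W.c₆ * t ^ 9
          + Fermat.Agent.S52x.dc12 W.c₄ W.c₆ * t ^ 10), ?_⟩
        rw [← mul_assoc, ← mul_assoc, ← hu]
        unfold Fermat.Agent.S52x.Dp
        ring
      have h6 : ((5 : ℕ) : ℤ) ∣ 1 := by simpa using dvd_sub h2 h4
      norm_num at h6

/-- Modularity of all semistable curves multiplicative at `2`. -/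
theorem exact_of_twoP (hA : GoodSwitchP) (hL : TwoAdic) (hlift : LiftSfP) (hsw : Switch35P)
    (h51 : StmtS51) (W : WeierstrassCurve ℤ) (hΔ : W.Δ ≠ 0) (hW : W.IsSemistableModel)
    (h2 : (2 : ℤ) ∣ W.Δ) : Mlc1IsModularModelOfExactConductorLevel W := by
  have key : ∀ V : WeierstrassCurve ℤ, V.Δ ≠ 0 → V.IsSemistableModel → (2 : ℤ) ∣ V.Δ →
      V.ModRepIsIrreducible 3 → Mlc1IsModularModelOfExactConductorLevel V := by
    intro V hΔV hV h2V h3V
    obtain ⟨V', hV', hgood, hcong⟩ := hA V hΔV hV h2V h3V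
    obtain ⟨M, hM, hpM, hres⟩ := residually_of_congruentP (p := 3) (by norm_num) (hL V' hV')
      hgood (by simpa using hcong)
    exact hlift 3 (Or.inl rfl) V hΔV hV h3V M hM hpM hres
  rcases h51 W hΔ hW with h3 | h5
  · exact key W hΔ hW h2 h3
  · obtain ⟨W', hΔ', hW', h3', hdvd, hgood, hcong⟩ := hsw W hΔ hW h5
    obtain ⟨N, hsq, hpN, hres⟩ := residually_of_congruentP (p := 5) (by norm_num)
      (key W' hΔ' hW' (h2.trans hdvd) h3') hgood (by simpa using hcong)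
    exact hlift 5 (Or.inr rfl) W hΔ hW h5 N hsq hpN hres

/-- Modularity of all semistable curves multiplicative at `2`. -/
theorem exact_of_openP (hL : TwoAdic) (hlift : LiftSfP)
    (W : WeierstrassCurve ℤ) (hΔ : W.Δ ≠ 0) (hW : W.IsSemistableModel)
    (h2 : (2 : ℤ) ∣ W.Δ) : Mlc1IsModularModelOfExactConductorLevel W :=
  exact_of_twoP goodSwitchP hL hlift switch35P S51.result W hΔ hW h2

/-- `S04`. -/
theorem s04_of_openP (hL : TwoAdic) (hlift : LiftSfP) (P : FreyPackage) :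
    P.freyCurve.IsModular :=
  s04_of (frey_exact (exact_of_openP hL hlift) P)

/-- `S06`. -/
theorem s06_of_openP (hL : TwoAdic) (hlift : LiftSfP) (P : FreyPackage) :
    ∃ N : ℕ, P.IsConductorLevel N ∧ P.ModularRepOfLevel N :=
  s06_of (frey_exact (exact_of_openP hL hlift) P)

/-- `S45`. -/
theorem s45_of_openP (hL : TwoAdic) (hlift : LiftSfP) (h43 : StmtS43) (h44 : StmtS44)
    (P : FreyPackage) (hirr : GaloisRepIsIrreducible (K := AlgebraicClosure ℚ) ℚ P.freyCurve P.p) :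
    ∃ f : CuspForm (CongruenceSubgroup.Gamma0 2) 2, f ≠ 0 :=
  s45_of (fun P _ hq hq2 hqp => S05.result P hq hq2 hqp) h43 h44 P
    (s06_of_openP hL hlift P) hirr

/-- **Fermat's Last Theorem** from `S12`, `S43`, `S44`, the `2`-adic modularity theorem and
modularity lifting (without level lowering at `p`). -/
theorem flt_of_openP (h12 : StmtS12) (h43 : StmtS43) (h44 : StmtS44)
    (hL : TwoAdic) (hlift : LiftSfP)
    (n : ℕ) (hn : 3 ≤ n) (a b c : ℕ) (ha : 0 < a) (hb : 0 < b) (hc : 0 < c) :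
    a ^ n + b ^ n ≠ c ^ n :=
  s01_of S02.result (s03_of S07.result (s09_of h12) fun P =>
    s45_of_openP hL hlift h43 h44 P) n hn a b c ha hb hc

end Fermat.Agent.Top
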